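/-
JT3 (helper7): export [VX] of S28 — the modular equation `Φ_d` of level `d`, `ℓ ∤ d`:

* `vx_Phi d ℓ hℓd ∈ ℤ_(ℓ)[Z][X]` : THE monic modular polynomial of S28 `wr_inputs`;
* `vx_Phi_eval`   : `Φ_d(j(q), j(q^d)) = 0` in `k((q))` for every field `k` and `ρ : ℤ_(ℓ) → k`
                    (characteristic `0` or `ℓ`);
* `vx_polyIndep`  : `1, j̃_d, …, j̃_d^(deg Φ - 1)` are independent over `k[j̃]`, `k` ANY field of
                    characteristic `ℓ`;
* `vx_minpoly`    : `Φ̄_d(j̃, X)` is the minimal polynomial of `j̃(q^d)` over `k(j̃)`;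
* `vx_separable`  : `Φ̄_d(t, X) ∈ κ[X]` is SEPARABLE for every field `k` of characteristic `ℓ`
                    and every `t ∈ κ ⊇ k` transcendental over `k`
                    (given as an injective `σ : k[Z] →+* κ`).
Prefix `vx_`.
-/
import Mathlib
import Fermat.Agent.S28.Wiring.Main
import Fermat.Agent.S28.FrontEnd.Zl
import Fermat.Agent.JT3.Algebra.LaurentSep
import Fermat.Agent.JT3.S18.ConstRed
import Fermat.Agent.JT3.KDescent.Twist

set_option autoImplicit false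
set_option linter.unusedSectionVars false

noncomputable section

namespace Fermat.Agent.JT3

open Polynomial ModularCurve IntermediateField Fermat.Agent.S28

/-! ### generic algebra -/

section Generic

/-- separability of the image of a polynomial over a domain does not depend on the field into
which the domain is embedded -/
theorem vx_separable_transfer {R κ κ' : Type*} [CommRing R] [IsDomain R] [Field κ] [Field κ']
    (P : R[X]) (σ : R →+* κ) (τ : R →+* κ') (hσ : Function.Injective σ)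
    (hτ : Function.Injective τ) (h : (P.map σ).Separable) : (P.map τ).Separable := by
  have h1 : (P.map (algebraMap R (FractionRing R))).Separable := by
    have e : P.map σ = (P.map (algebraMap R (FractionRing R))).map
        (IsFractionRing.lift (K := FractionRing R) hσ) := by
      rw [Polynomial.map_map]
      congr 1
      ext x
      simp
    rw [e, Polynomial.separable_map] at h
    exact h
  have e : P.map τ = (P.map (algebraMap R (FractionRing R))).map
      (IsFractionRing.lift (K := FractionRing R) hτ) := by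
    rw [Polynomial.map_map]
    congr 1
    ext x
    simp
  rw [e, Polynomial.separable_map]
  exact h1

variable {k E : Type*} [Field k] [Field E] [Algebra k E]

/-- clearing denominators of finitely many elements of `k(x)` -/
theorem vx_exists_common_denom (x : E) (hx : Transcendental k x) {n : ℕ} (c : Fin n → k⟮x⟯) :
    ∃ (s : k[X]) (r : Fin n → k[X]), s ≠ 0 ∧
      ∀ i, aeval x s * (c i : E) = aeval x (r i) := by
  classical
  have h1 : ∀ i, ∃ r s : k[X], s ≠ 0 ∧ (c i : E) * aeval x s = aeval x r := by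
    intro i
    obtain ⟨r, s, h⟩ := (IntermediateField.mem_adjoin_simple_iff k (c i : E)).mp (c i).2
    by_cases hs : s = 0
    · refine ⟨0, 1, one_ne_zero, ?_⟩
      rw [h, hs, map_zero, div_zero, zero_mul]
    · refine ⟨r, s, hs, ?_⟩
      have hs' : aeval x s ≠ 0 := fun h0 => hs ((transcendental_iff.mp hx) s h0)
      rw [h, div_mul_cancel₀ _ hs']
  choose r s hs h using h1
  refine ⟨∏ i, s i, fun i => r i * ∏ j ∈ Finset.univ.erase i, s j,
    Finset.prod_ne_zero_iff.mpr fun i _ => hs i, fun i => ?_⟩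
  rw [← Finset.mul_prod_erase Finset.univ s (Finset.mem_univ i), map_mul, map_mul, ← h i]
  ring

/-- independence of `1, y, …, y^(n-1)` over `k[x]` bounds the degree of `y` over `k(x)` below -/
theorem vx_le_natDegree_minpoly (x y : E) (hx : Transcendental k x) {n : ℕ}
    (hind : bd_PolyIndep k x y n) (hy : IsIntegral k⟮x⟯ y) :
    n ≤ (minpoly k⟮x⟯ y).natDegree := by
  classical
  by_contra hlt
  push Not at hlt
  set m := (minpoly k⟮x⟯ y).natDegree with hm
  obtain ⟨s, r, hs, hr⟩ := vx_exists_common_denom x hx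
    (fun i : Fin n => (minpoly k⟮x⟯ y).coeff i)
  have hs' : aeval x s ≠ 0 := fun h0 => hs ((transcendental_iff.mp hx) s h0)
  -- the relation
  have hrel : ∑ i : Fin n, aeval x (r i) * y ^ (i : ℕ) = 0 := by
    have h0 : aeval y (minpoly k⟮x⟯ y) = 0 := minpoly.aeval _ _
    rw [aeval_eq_sum_range' (n := n) (by rw [← hm]; exact hlt)] at h0
    have h1 : ∑ i : Fin n, aeval x (r i) * y ^ (i : ℕ)
        = aeval x s * ∑ i ∈ Finset.range n, (minpoly k⟮x⟯ y).coeff i • y ^ i := by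
      rw [Finset.mul_sum, ← Fin.sum_univ_eq_sum_range
        (fun i => aeval x s * ((minpoly k⟮x⟯ y).coeff i • y ^ i)) n]
      refine Finset.sum_congr rfl fun i _ => ?_
      rw [← hr i, Algebra.smul_def, mul_assoc]
      rfl
    rw [h1, h0, mul_zero]
  have hr0 := hind r hrel
  have hmr : r ⟨m, hlt⟩ = 0 := congrFun hr0 ⟨m, hlt⟩
  have h2 := hr ⟨m, hlt⟩
  rw [hmr, map_zero] at h2
  have h3 : (minpoly k⟮x⟯ y).coeff m = 1 := by
    rw [hm]; exact (minpoly.monic hy).coeff_natDegree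
  have h4 : (((minpoly k⟮x⟯ y).coeff m : k⟮x⟯) : E) = 1 := by rw [h3]; rfl
  have h5 : aeval x s * (((minpoly k⟮x⟯ y).coeff m : k⟮x⟯) : E) = 0 := h2
  rw [h4, mul_one] at h5
  exact hs' h5

end Generic

/-! ### the modular polynomial -/

section Phi

variable (d ℓ : ℕ) [NeZero d] [Fact ℓ.Prime] (hℓd : ¬ ℓ ∣ d)

/-- **THE modular polynomial of level `d`** over `ℤ_(ℓ)`, `ℓ ∤ d` (S28 `wr_inputs`). -/
def vx_Phi : Polynomial (Polynomial ↥(GaloisRep.ratLocalizedAt ℓ)) :=
  Classical.choose (wr_inputs d ℓ hℓd)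

theorem vx_Phi_monic : (vx_Phi d ℓ hℓd).Monic :=
  (Classical.choose_spec (wr_inputs d ℓ hℓd)).1

theorem vx_Phi_eval_rat :
    (vx_Phi d ℓ hℓd).eval₂ (Polynomial.eval₂RingHom
      ((HahnSeries.C : ℚ →+* LaurentSeries ℚ).comp
        (algebraMap ↥(GaloisRep.ratLocalizedAt ℓ) ℚ)) jq) (jqN d) = 0 :=
  (Classical.choose_spec (wr_inputs d ℓ hℓd)).2.1

theorem vx_polyIndep_zmod :
    bd_PolyIndep (ZMod ℓ) (jqModC (ZMod ℓ)) (qExpand (ZMod ℓ) d (jqModC (ZMod ℓ)))
      (vx_Phi d ℓ hℓd).natDegree :=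
  (Classical.choose_spec (wr_inputs d ℓ hℓd)).2.2

/-- **the modular equation over any field `k`** (characteristic `0` or `ℓ`):
`Φ_d(j(q), j(q^d)) = 0` in `k((q))`. -/
theorem vx_Phi_eval {k : Type*} [Field k] (ρ : ↥(GaloisRep.ratLocalizedAt ℓ) →+* k) :
    (vx_Phi d ℓ hℓd).eval₂ (Polynomial.eval₂RingHom
      ((HahnSeries.C : k →+* LaurentSeries k).comp ρ) (jqModC k)) (qExpand k d (jqModC k)) = 0 := by
  set R := ↥(GaloisRep.ratLocalizedAt ℓ)
  set Φ := vx_Phi d ℓ hℓd
  set Ψ : LaurentSeries R :=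
    Φ.eval₂ (Polynomial.eval₂RingHom (HahnSeries.C : R →+* LaurentSeries R) (jqModC R))
      (qExpand R d (jqModC R)) with hΨ
  have hΨ0 : Ψ = 0 := by
    apply jcr_coeffMap_injective (algebraMap R ℚ) (FaithfulSMul.algebraMap_injective R ℚ)
    rw [map_zero, hΨ, jcr_coeffMap_eval₂, coeffMap_qExpand, coeffMap_jqModC, jqModC_rat]
    exact vx_Phi_eval_rat d ℓ hℓd
  have := congrArg (coeffMap ρ) hΨ0
  rw [map_zero, hΨ, jcr_coeffMap_eval₂, coeffMap_qExpand, coeffMap_jqModC] at this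
  exact this

/-- **(HC) over any field of characteristic `ℓ`** -/
theorem vx_polyIndep (k : Type*) [Field k] [CharP k ℓ] :
    bd_PolyIndep k (jqModC k) (qExpand k d (jqModC k)) (vx_Phi d ℓ hℓd).natDegree := by
  have h := bd_polyIndep_coeffMap (ZMod.castHom (dvd_refl ℓ) k) (vx_polyIndep_zmod d ℓ hℓd)
  rwa [coeffMap_qExpand, coeffMap_jqModC] at h

end Phi

/-! ### minimal polynomial and separability -/

section Sep

variable {k : Type*} [Field k]

theorem vx_transcendental_jq : Transcendental k (jqModC k) := by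
  intro halg
  have h := kd_order_eq_zero_of_isAlgebraic halg (jqModC_ne_zero_of_nontrivial k)
  rw [jcr_order_jq] at h
  norm_num at h

variable (k) in
/-- the evaluation `k[Z] → k(j̃)`, `Z ↦ j̃` -/
def vx_iota : k[X] →+* ↥(k⟮jqModC k⟯) :=
  (aeval (AdjoinSimple.gen k (jqModC k)) : k[X] →ₐ[k] ↥(k⟮jqModC k⟯)).toRingHom

theorem vx_iota_coe (p : k[X]) : ((vx_iota k p : ↥(k⟮jqModC k⟯)) : LaurentSeries k)
    = aeval (jqModC k) p := by
  show algebraMap ↥(k⟮jqModC k⟯) (LaurentSeries k) (aeval (AdjoinSimple.gen k (jqModC k)) p) = _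
  rw [← aeval_algebraMap_apply, AdjoinSimple.algebraMap_gen]

theorem vx_iota_injective : Function.Injective (vx_iota k) := by
  rw [injective_iff_map_eq_zero]
  intro p hp
  have := congrArg (Subtype.val) hp
  rw [vx_iota_coe] at this
  exact (transcendental_iff.mp vx_transcendental_jq) p this

variable (d ℓ : ℕ) [NeZero d] [Fact ℓ.Prime] (hℓd : ¬ ℓ ∣ d)

/-- `Φ̄_d(j̃, X) ∈ k(j̃)[X]` -/
def vx_PhiK (ρ : ↥(GaloisRep.ratLocalizedAt ℓ) →+* k) : Polynomial ↥(k⟮jqModC k⟯) :=
  ((vx_Phi d ℓ hℓd).map (Polynomial.mapRingHom ρ)).map (vx_iota k)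

theorem vx_PhiK_monic (ρ : ↥(GaloisRep.ratLocalizedAt ℓ) →+* k) :
    (vx_PhiK d ℓ hℓd ρ).Monic :=
  ((vx_Phi_monic d ℓ hℓd).map _).map _

theorem vx_PhiK_natDegree (ρ : ↥(GaloisRep.ratLocalizedAt ℓ) →+* k) :
    (vx_PhiK d ℓ hℓd ρ).natDegree = (vx_Phi d ℓ hℓd).natDegree := by
  rw [vx_PhiK, ((vx_Phi_monic d ℓ hℓd).map _).natDegree_map, (vx_Phi_monic d ℓ hℓd).natDegree_map]

theorem vx_PhiK_aeval (ρ : ↥(GaloisRep.ratLocalizedAt ℓ) →+* k) :
    aeval (qExpand k d (jqModC k)) (vx_PhiK d ℓ hℓd ρ) = 0 := by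
  rw [vx_PhiK, aeval_def, Polynomial.eval₂_map, Polynomial.eval₂_map]
  have e : ((algebraMap ↥(k⟮jqModC k⟯) (LaurentSeries k)).comp (vx_iota k)).comp
      (Polynomial.mapRingHom ρ)
      = Polynomial.eval₂RingHom ((HahnSeries.C : k →+* LaurentSeries k).comp ρ) (jqModC k) := by
    refine Polynomial.ringHom_ext (fun r => ?_) ?_
    · simp only [RingHom.comp_apply, Polynomial.coe_mapRingHom, Polynomial.map_C,
        Polynomial.coe_eval₂RingHom, Polynomial.eval₂_C]
      show ((vx_iota k (C (ρ r)) : ↥(k⟮jqModC k⟯)) : LaurentSeries k) = _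
      rw [vx_iota_coe, aeval_C, algebraMap_laurentSeries_eq_single, HahnSeries.C_apply]
    · simp only [RingHom.comp_apply, Polynomial.coe_mapRingHom, Polynomial.map_X,
        Polynomial.coe_eval₂RingHom, Polynomial.eval₂_X]
      show ((vx_iota k X : ↥(k⟮jqModC k⟯)) : LaurentSeries k) = _
      rw [vx_iota_coe, aeval_X]
  rw [e]
  exact vx_Phi_eval d ℓ hℓd ρ

include hℓd in
theorem vx_isIntegral (ρ : ↥(GaloisRep.ratLocalizedAt ℓ) →+* k) :
    IsIntegral ↥(k⟮jqModC k⟯) (qExpand k d (jqModC k)) :=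
  ⟨vx_PhiK d ℓ hℓd ρ, vx_PhiK_monic d ℓ hℓd ρ, vx_PhiK_aeval d ℓ hℓd ρ⟩

/-- **`Φ̄_d(j̃, X)` is the minimal polynomial of `j̃(q^d)` over `k(j̃)`**, `k` any field of
characteristic `ℓ ∤ d`. -/
theorem vx_minpoly [CharP k ℓ] (ρ : ↥(GaloisRep.ratLocalizedAt ℓ) →+* k) :
    minpoly ↥(k⟮jqModC k⟯) (qExpand k d (jqModC k)) = vx_PhiK d ℓ hℓd ρ := by
  have hint := vx_isIntegral d ℓ hℓd ρ
  have hdeg := vx_le_natDegree_minpoly (jqModC k) (qExpand k d (jqModC k))
    vx_transcendental_jq (vx_polyIndep d ℓ hℓd k) hint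
  refine (Polynomial.eq_of_monic_of_dvd_of_natDegree_le (minpoly.monic hint)
    (vx_PhiK_monic d ℓ hℓd ρ) (minpoly.dvd _ _ (vx_PhiK_aeval d ℓ hℓd ρ)) ?_).symm
  rw [vx_PhiK_natDegree]
  exact hdeg

/-- irreducibility of `Φ̄_d(j̃, X)` over `k(j̃)` -/
theorem vx_PhiK_irreducible [CharP k ℓ] (ρ : ↥(GaloisRep.ratLocalizedAt ℓ) →+* k) :
    Irreducible (vx_PhiK d ℓ hℓd ρ) := by
  rw [← vx_minpoly d ℓ hℓd ρ]
  exact minpoly.irreducible (vx_isIntegral d ℓ hℓd ρ)

/-- separability over a perfect field -/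
theorem vx_PhiK_separable [CharP k ℓ] [PerfectField k]
    (ρ : ↥(GaloisRep.ratLocalizedAt ℓ) →+* k) : (vx_PhiK d ℓ hℓd ρ).Separable := by
  rw [← vx_minpoly d ℓ hℓd ρ]
  have hord : ¬ (ℓ : ℤ) ∣ (jqModC k).order := by
    rw [jcr_order_jq]
    intro h
    have h1 : (ℓ : ℤ) ∣ 1 := (dvd_neg (a := (ℓ : ℤ)) (b := 1)).mp h
    have h2 : ℓ ∣ 1 := by exact_mod_cast h1
    exact (Fact.out : ℓ.Prime).one_lt.ne' (Nat.dvd_one.mp h2)
  exact lsp_isSeparable ℓ (jqModC_ne_zero_of_nontrivial k) hord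
    (vx_isIntegral d ℓ hℓd ρ).isAlgebraic

/-- **[VX]** `Φ̄_d(t, X) ∈ κ[X]` is separable, for `k` ANY field of characteristic `ℓ ∤ d` and
`t ∈ κ` transcendental over `k` (given as an injective `σ : k[Z] →+* κ`, `t = σ Z`). -/
theorem vx_separable [CharP k ℓ] {κ : Type*} [Field κ]
    (ρ : ↥(GaloisRep.ratLocalizedAt ℓ) →+* k) (σ : k[X] →+* κ) (hσ : Function.Injective σ) :
    (((vx_Phi d ℓ hℓd).map (Polynomial.mapRingHom ρ)).map σ).Separable := by
  set c : k →+* AlgebraicClosure k := algebraMap k (AlgebraicClosure k) with hc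
  have : CharP (AlgebraicClosure k) ℓ := charP_of_injective_algebraMap c.injective ℓ
  have h := vx_PhiK_separable d ℓ hℓd (k := AlgebraicClosure k) (c.comp ρ)
  have e : vx_PhiK d ℓ hℓd (c.comp ρ)
      = ((vx_Phi d ℓ hℓd).map (Polynomial.mapRingHom ρ)).map
          ((vx_iota (AlgebraicClosure k)).comp (Polynomial.mapRingHom c)) := by
    rw [vx_PhiK, Polynomial.map_map, Polynomial.map_map]
    congr 1
    refine Polynomial.ringHom_ext (fun r => ?_) ?_ <;> simp
  rw [e] at h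
  refine vx_separable_transfer _ _ σ ?_ hσ h
  exact vx_iota_injective.comp (Polynomial.map_injective c c.injective)

end Sep

/-! ### the canonical map `ℤ_(ℓ) → K` and consumer forms -/

section Rho

variable (ℓ : ℕ) [Fact ℓ.Prime]

theorem vx_den_ne_zero (K : Type*) [Field K] [CharP K ℓ] (x : ↥(GaloisRep.ratLocalizedAt ℓ)) :
    (((x : ℚ).den : ℕ) : K) ≠ 0 := by
  intro h
  have h1 : ℓ ∣ (x : ℚ).den := (CharP.cast_eq_zero_iff K ℓ _).mp h
  have h2 : (x : ℚ).den.Coprime ℓ := x.2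
  have h3 : ℓ ∣ Nat.gcd (x : ℚ).den ℓ := Nat.dvd_gcd h1 dvd_rfl
  rw [h2] at h3
  exact (Fact.out : ℓ.Prime).one_lt.ne' (Nat.dvd_one.mp h3)

/-- the canonical ring homomorphism `ℤ_(ℓ) → K` into a field of characteristic `ℓ`. -/
def vx_rho (K : Type*) [Field K] [CharP K ℓ] : ↥(GaloisRep.ratLocalizedAt ℓ) →+* K where
  toFun x := ((x : ℚ) : K)
  map_one' := by simp
  map_zero' := by simp
  map_add' x y := by
    show (((x : ℚ) + (y : ℚ) : ℚ) : K) = _
    exact Rat.cast_add_of_ne_zero (vx_den_ne_zero ℓ K x) (vx_den_ne_zero ℓ K y)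
  map_mul' x y := by
    show (((x : ℚ) * (y : ℚ) : ℚ) : K) = _
    exact Rat.cast_mul_of_ne_zero (vx_den_ne_zero ℓ K x) (vx_den_ne_zero ℓ K y)

/-- ring homomorphisms out of `ℤ_(ℓ)` are unique -/
theorem vx_ringHom_ext {S : Type*} [CommRing S] (f g : ↥(GaloisRep.ratLocalizedAt ℓ) →+* S) :
    f = g := by
  ext x
  have hx : (((x : ℚ).den : ℕ) : ↥(GaloisRep.ratLocalizedAt ℓ)) * x
      = (((x : ℚ).num : ℤ) : ↥(GaloisRep.ratLocalizedAt ℓ)) := by
    apply Subtype.ext
    push_cast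
    exact Rat.den_mul_eq_num _
  have hu : IsUnit (((x : ℚ).den : ℕ) : ↥(GaloisRep.ratLocalizedAt ℓ)) := by
    apply fz_isUnit_of_not_dvd ℓ
    rw [fz_dvd_iff]
    intro h
    have h1 : ((((x : ℚ).den : ℕ) : ↥(GaloisRep.ratLocalizedAt ℓ)) : ℚ) = ((x : ℚ).den : ℚ) := by
      push_cast; rfl
    rw [h1, Rat.num_natCast] at h
    have h2 : ℓ ∣ (x : ℚ).den := by exact_mod_cast h
    have h3 : (x : ℚ).den.Coprime ℓ := x.2
    have h4 : ℓ ∣ Nat.gcd (x : ℚ).den ℓ := Nat.dvd_gcd h2 dvd_rfl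
    rw [h3] at h4
    exact (Fact.out : ℓ.Prime).one_lt.ne' (Nat.dvd_one.mp h4)
  have hf := congrArg f hx
  have hg := congrArg g hx
  rw [map_mul, map_natCast, map_intCast] at hf hg
  have hu' : IsUnit ((((x : ℚ).den : ℕ)) : S) := by
    have := hu.map f
    rwa [map_natCast] at this
  exact hu'.mul_left_cancel (hf.trans hg.symm)

end Rho

section Consumer

variable (d ℓ : ℕ) [NeZero d] [Fact ℓ.Prime] (hℓd : ¬ ℓ ∣ d)

/-- **[VX], transcendental form**: `k` a field of characteristic `ℓ ∤ d`, `κ` a field over `k`,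
`t ∈ κ` transcendental over `k`: `Φ_d` specialised along ANY `ρ' : ℤ_(ℓ) →+* κ` and `Z ↦ t` is
separable in `κ[X]`. -/
theorem vx_separable_of_transcendental {k κ : Type*} [Field k] [CharP k ℓ] [Field κ] [Algebra k κ]
    (ρ' : ↥(GaloisRep.ratLocalizedAt ℓ) →+* κ) (t : κ) (ht : Transcendental k t) :
    ((vx_Phi d ℓ hℓd).map (Polynomial.eval₂RingHom ρ' t)).Separable := by
  have h := vx_separable d ℓ hℓd (vx_rho ℓ k) ((aeval t : k[X] →ₐ[k] κ).toRingHom)
    (transcendental_iff_injective.mp ht)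
  rw [Polynomial.map_map] at h
  have e : ((aeval t : k[X] →ₐ[k] κ).toRingHom).comp (Polynomial.mapRingHom (vx_rho ℓ k))
      = Polynomial.eval₂RingHom ρ' t := by
    refine Polynomial.ringHom_ext (fun r => ?_) ?_
    · simp only [RingHom.comp_apply, Polynomial.coe_mapRingHom, Polynomial.map_C,
        Polynomial.coe_eval₂RingHom, Polynomial.eval₂_C]
      show aeval t (C (vx_rho ℓ k r)) = _
      rw [aeval_C]
      exact congrFun (congrArg DFunLike.coe
        (vx_ringHom_ext ℓ ((algebraMap k κ).comp (vx_rho ℓ k)) ρ')) r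
    · simp only [RingHom.comp_apply, Polynomial.coe_mapRingHom, Polynomial.map_X,
        Polynomial.coe_eval₂RingHom, Polynomial.eval₂_X]
      show aeval t X = _
      rw [aeval_X]
  rw [e] at h
  exact h

/-- the modular equation after the substitution `q ↦ q^n`:
`Φ_d(j(q^n), j(q^(n d))) = 0` (e.g. `n = 2`: `Φ_d(j', φ(j_d)) = 0` for `φ = (q ↦ q²)`). -/
theorem vx_Phi_eval_qExpand {k : Type*} [Field k] (ρ : ↥(GaloisRep.ratLocalizedAt ℓ) →+* k)
    (n : ℕ) [NeZero n] :
    (vx_Phi d ℓ hℓd).eval₂ (Polynomial.eval₂RingHom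
      ((HahnSeries.C : k →+* LaurentSeries k).comp ρ) (qExpand k n (jqModC k)))
      (qExpand k n (qExpand k d (jqModC k))) = 0 := by
  have h := congrArg (qExpand k n) (vx_Phi_eval d ℓ hℓd ρ)
  rw [map_zero, Polynomial.hom_eval₂] at h
  have e : (qExpand k n).comp (Polynomial.eval₂RingHom
      ((HahnSeries.C : k →+* LaurentSeries k).comp ρ) (jqModC k))
      = Polynomial.eval₂RingHom ((HahnSeries.C : k →+* LaurentSeries k).comp ρ)
          (qExpand k n (jqModC k)) := by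
    refine Polynomial.ringHom_ext (fun r => ?_) ?_
    · simp only [RingHom.comp_apply, Polynomial.coe_eval₂RingHom, Polynomial.eval₂_C, qExpand_C]
    · simp only [RingHom.comp_apply, Polynomial.coe_eval₂RingHom, Polynomial.eval₂_X]
  rw [e] at h
  exact h

end Consumer

end Fermat.Agent.JT3
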