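import Mathlib
import Fermat.Agent.S24.Hurwitz.IntegralClosure
import Fermat.Agent.JT3.Seams
import Fermat.Agent.JT3.Cover.Ramification

/-!
# JT3 / Route R (S18), leaf [RAM-L]: ramification of `F_N / L(j)` over a field `L ⊆ Q̄`
(prefix `rml_`)

## Part 1: the Place ↔ Dedekind dictionary (generic)

`L ⊆ K ⊆ F` fields, `F / K` finite separable, `A` a discrete valuation ring with fraction field `K`
containing `L`, `B := integralClosure A F`.  A nonzero prime `P` of `B` defines a place
`rml_place A P hP hL` of `F / L` and `e(P | A) · ord_A(a) = ord_P(a)` for `a ∈ A`.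
-/

set_option autoImplicit false
set_option linter.style.haveILetI false
set_option linter.unusedSectionVars false

noncomputable section

open AlgebraicCurve IsDedekindDomain WithZero

namespace Fermat.Agent.JT3

open Fermat.Agent.S24

section Dict

variable {L : Type*} (K : Type*) {F : Type*} [Field L] [Field K] [Field F] [Algebra L K]
  [Algebra K F] [Algebra L F] [IsScalarTower L K F] [FiniteDimensional K F]
  [Algebra.IsSeparable K F]
  (A : Type*) [CommRing A] [IsDomain A] [IsDiscreteValuationRing A] [Algebra A K]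
  [IsFractionRing A K] [Algebra A F] [IsScalarTower A K F]

omit [Field L] [Algebra L K] [Algebra L F] [IsScalarTower L K F] in
include K in
theorem rml_isDedekindDomain : IsDedekindDomain (integralClosure A F) :=
  integralClosure.isDedekindDomain A K F

omit [Field L] [Algebra L K] [Algebra L F] [IsScalarTower L K F] [Algebra.IsSeparable K F]
  [IsDiscreteValuationRing A] in
include K in
theorem rml_isFractionRing : IsFractionRing (integralClosure A F) F :=
  integralClosure.isFractionRing_of_finite_extension K F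

omit [Field L] [Algebra L K] [Algebra L F] [IsScalarTower L K F] in
include K in
theorem rml_finite : Module.Finite A (integralClosure A F) :=
  IsIntegralClosure.finite A K F (integralClosure A F)

/-- the place of `F / L` attached to a nonzero prime of the integral closure of `A` -/
def rml_place (hL : ∀ c : L, algebraMap L K c ∈ (algebraMap A K).range)
    (P : Ideal (integralClosure A F)) [P.IsPrime] (hP : P ≠ ⊥) : Place L F :=
  haveI := rml_isDedekindDomain K (F := F) A
  haveI := rml_isFractionRing K (F := F) A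
  hw_placeOfValuation ((⟨P, inferInstance, hP⟩ : HeightOneSpectrum (integralClosure A F)).valuation F)
    (fun c => by
      obtain ⟨a, ha⟩ := hL c
      have h1 : algebraMap L F c = algebraMap (integralClosure A F) F
          (algebraMap A (integralClosure A F) a) := by
        rw [IsScalarTower.algebraMap_apply L K F, ← ha, ← IsScalarTower.algebraMap_apply A K F,
          IsScalarTower.algebraMap_apply A (integralClosure A F) F]
      rw [h1]
      exact HeightOneSpectrum.valuation_le_one _ _)
    (by
      obtain ⟨ϖ, hϖ⟩ := (⟨P, inferInstance, hP⟩ :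
        HeightOneSpectrum (integralClosure A F)).valuation_exists_uniformizer F
      refine ⟨ϖ⁻¹, ?_⟩
      rw [map_inv₀, hϖ, ← exp_neg, neg_neg, ← exp_zero, exp_lt_exp]
      norm_num)

omit [Field L] [Algebra L K] [Algebra L F] [IsScalarTower L K F] [Algebra.IsSeparable K F]
  [FiniteDimensional K F] [IsDiscreteValuationRing A] in
include K in
/-- `A → integralClosure A F` is injective -/
theorem rml_faithfulSMul : FaithfulSMul A (integralClosure A F) := by
  rw [faithfulSMul_iff_algebraMap_injective]
  intro a b hab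
  have h1 : algebraMap A F a = algebraMap A F b := by
    rw [IsScalarTower.algebraMap_apply A (integralClosure A F) F, hab,
      ← IsScalarTower.algebraMap_apply A (integralClosure A F) F]
  rw [IsScalarTower.algebraMap_apply A K F, IsScalarTower.algebraMap_apply A K F] at h1
  exact IsFractionRing.injective A K ((algebraMap K F).injective h1)

theorem rml_place_ord (hL : ∀ c : L, algebraMap L K c ∈ (algebraMap A K).range)
    (P : Ideal (integralClosure A F)) [P.IsPrime] (hP : P ≠ ⊥) (f : F) :
    haveI := rml_isDedekindDomain K (F := F) A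
    haveI := rml_isFractionRing K (F := F) A
    (rml_place K A hL P hP).ord f =
      -(log ((⟨P, inferInstance, hP⟩ : HeightOneSpectrum (integralClosure A F)).valuation F f)) := by
  haveI := rml_isDedekindDomain K (F := F) A
  haveI := rml_isFractionRing K (F := F) A
  rw [hw_ord_eq_neg_log]
  congr 2
  exact congrArg (fun w : Valuation F ℤᵐ⁰ => w f)
    (hw_adicValuation_eq (rml_place K A hL P hP) _ rfl
      ((⟨P, inferInstance, hP⟩ :
        HeightOneSpectrum (integralClosure A F)).valuation_exists_uniformizer F))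

/-- **`e(P | A) = ord_P(π)`** for a uniformiser `π` of `A`. -/
theorem rml_place_ord_irreducible (hL : ∀ c : L, algebraMap L K c ∈ (algebraMap A K).range)
    (P : Ideal (integralClosure A F)) [P.IsPrime] (hP : P ≠ ⊥) {π : A} (hπ : Irreducible π) :
    (rml_place K A hL P hP).ord (algebraMap A F π) = (P.ramificationIdx A : ℤ) := by
  haveI := rml_isDedekindDomain K (F := F) A
  haveI := rml_isFractionRing K (F := F) A
  haveI := rml_faithfulSMul K (F := F) A
  haveI : Algebra.IsIntegral A (integralClosure A F) := inferInstance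
  rw [rml_place_ord]
  have hunder : P.under A = Ideal.span {π} := cv_under_eq_span P hP hπ
  haveI : (⟨P, inferInstance, hP⟩ : HeightOneSpectrum (integralClosure A F)).asIdeal.LiesOver
      (Ideal.span {π}) := ⟨hunder.symm⟩
  have h := hw_ramificationIdx_eq (F := F) (integralClosure A F) A π hπ.ne_zero
    (⟨P, inferInstance, hP⟩ : HeightOneSpectrum (integralClosure A F))
  rw [IsScalarTower.algebraMap_apply A (integralClosure A F) F]
  exact h.symm

omit [Algebra.IsSeparable K F] [FiniteDimensional K F] [IsDiscreteValuationRing A] in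
include K in
theorem rml_algebraMap_ne_zero {a : A} (ha : a ≠ 0) : algebraMap A F a ≠ 0 := by
  rw [IsScalarTower.algebraMap_apply A K F]
  intro h
  exact ha ((IsFractionRing.injective A K) (by
    rw [map_zero]; exact (algebraMap K F).injective (by rw [h, map_zero])))

theorem rml_place_algebraMap_mem (hL : ∀ c : L, algebraMap L K c ∈ (algebraMap A K).range)
    (P : Ideal (integralClosure A F)) [P.IsPrime] (hP : P ≠ ⊥) (a : A) :
    algebraMap A F a ∈ (rml_place K A hL P hP).toValuationSubring := by
  haveI := rml_isDedekindDomain K (F := F) A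
  haveI := rml_isFractionRing K (F := F) A
  rw [IsScalarTower.algebraMap_apply A (integralClosure A F) F]
  exact (Valuation.mem_valuationSubring_iff _ _).mpr
    (HeightOneSpectrum.valuation_le_one
      (⟨P, inferInstance, hP⟩ : HeightOneSpectrum (integralClosure A F)) _)

theorem rml_place_ord_nonneg (hL : ∀ c : L, algebraMap L K c ∈ (algebraMap A K).range)
    (P : Ideal (integralClosure A F)) [P.IsPrime] (hP : P ≠ ⊥) {a : A} (ha : a ≠ 0) :
    0 ≤ (rml_place K A hL P hP).ord (algebraMap A F a) :=
  (hw_mem_iff_ord_nonneg _ (rml_algebraMap_ne_zero K A ha)).1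
    (rml_place_algebraMap_mem K A hL P hP a)

theorem rml_place_ord_unit (hL : ∀ c : L, algebraMap L K c ∈ (algebraMap A K).range)
    (P : Ideal (integralClosure A F)) [P.IsPrime] (hP : P ≠ ⊥) (u : Aˣ) :
    (rml_place K A hL P hP).ord (algebraMap A F (u : A)) = 0 := by
  have h1 := rml_place_ord_nonneg K A hL P hP (u.ne_zero)
  have h2 := rml_place_ord_nonneg K A hL P hP ((u⁻¹).ne_zero)
  have h3 : algebraMap A F ((u⁻¹ : Aˣ) : A) = (algebraMap A F (u : A))⁻¹ := by
    apply eq_inv_of_mul_eq_one_left
    rw [← map_mul]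
    simp
  rw [h3, Place.ord_inv] at h2
  omega

/-- **the dictionary**: `ord_P(a) = e(P | A) · ord_A(a)` for `a ∈ A`. -/
theorem rml_place_ord_algebraMap (hL : ∀ c : L, algebraMap L K c ∈ (algebraMap A K).range)
    (P : Ideal (integralClosure A F)) [P.IsPrime] (hP : P ≠ ⊥) {a : A} (ha : a ≠ 0) :
    ∃ m : ℕ, (m = 0 ↔ IsUnit a) ∧
      (rml_place K A hL P hP).ord (algebraMap A F a) = (P.ramificationIdx A : ℤ) * m := by
  obtain ⟨π, hπ⟩ := IsDiscreteValuationRing.exists_irreducible A
  obtain ⟨m, u, rfl⟩ := IsDiscreteValuationRing.eq_unit_mul_pow_irreducible ha hπ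
  refine ⟨m, ?_, ?_⟩
  · constructor
    · rintro rfl
      simp
    · intro h
      by_contra hm
      have h1 : IsUnit (π ^ m) := by
        have := (u⁻¹).isUnit.mul h
        rwa [← mul_assoc, ← Units.val_mul, inv_mul_cancel, Units.val_one, one_mul] at this
      exact hπ.not_isUnit ((isUnit_pow_iff hm).1 h1)
  · have hπ0 := rml_algebraMap_ne_zero K (F := F) A hπ.ne_zero
    rw [map_mul, map_pow, Place.ord_mul _ (rml_algebraMap_ne_zero K A u.ne_zero)
      (pow_ne_zero _ hπ0), rml_place_ord_unit, zero_add, ← zpow_natCast, Place.ord_zpow,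
      rml_place_ord_irreducible K A hL P hP hπ]
    ring

include K in
theorem rml_ramificationIdx_pos (P : Ideal (integralClosure A F)) [P.IsPrime] :
    0 < P.ramificationIdx A := by
  haveI := rml_finite K (F := F) A
  exact Ideal.ramificationIdx_pos P A

/-- **generic (R2)-(R4)**: if `a ∈ 𝔪_A`, `a ≠ 0`, and at every place of `F / L` where `a` vanishes
the order of `a` divides `n`, then every ramification index over `A` divides `n`. -/
theorem rml_ramificationIdx_dvd (hL : ∀ c : L, algebraMap L K c ∈ (algebraMap A K).range)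
    {a : A} (ha0 : a ≠ 0) (ha : ¬ IsUnit a) (n : ℤ)
    (H : ∀ Q : Place L F, 0 < Q.ord (algebraMap A F a) → Q.ord (algebraMap A F a) ∣ n)
    (P : Ideal (integralClosure A F)) [P.IsPrime] (hP : P ≠ ⊥) :
    (P.ramificationIdx A : ℤ) ∣ n := by
  obtain ⟨m, hm, hord⟩ := rml_place_ord_algebraMap K A hL P hP ha0
  have hm0 : 0 < m := Nat.pos_of_ne_zero (fun h => ha (hm.1 h))
  have he := rml_ramificationIdx_pos K (F := F) A P
  have hpos : 0 < (rml_place K A hL P hP).ord (algebraMap A F a) := by
    rw [hord]; positivity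
  have h := H _ hpos
  rw [hord] at h
  exact (Dvd.intro _ rfl).trans h

/-- **generic (R1)**: if `A` has residue characteristic zero and at the place of `P` some element of
`A` has order one, then `P` is unramified over `A`. -/
theorem rml_isUnramifiedAt [CharZero L]
    (hL : ∀ c : L, algebraMap L K c ∈ (algebraMap A K).range)
    (P : Ideal (integralClosure A F)) [P.IsPrime] (hP : P ≠ ⊥) {a : A}
    (h1 : (rml_place K A hL P hP).ord (algebraMap A F a) = 1) :
    Algebra.IsUnramifiedAt A P := by
  have ha0 : a ≠ 0 := by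
    rintro rfl
    rw [map_zero, Place.ord_zero] at h1
    exact zero_ne_one h1
  obtain ⟨m, -, hord⟩ := rml_place_ord_algebraMap K A hL P hP ha0
  rw [h1] at hord
  have he : P.ramificationIdx A = 1 := by
    have h2 : (P.ramificationIdx A : ℤ) ∣ 1 := Dvd.intro _ hord.symm
    have h3 : P.ramificationIdx A ∣ 1 := Int.natCast_dvd_natCast.1 (by exact_mod_cast h2)
    exact Nat.dvd_one.1 h3
  haveI := rml_finite K (F := F) A
  haveI : Algebra.IsIntegral A (integralClosure A F) := inferInstance
  -- the residue field of `P ∩ A` has characteristic zero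
  haveI : CharZero (P.under A).ResidueField := by
    refine ⟨fun m n hmn => ?_⟩
    by_contra hne
    have h1 : ((m : A ⧸ P.under A)) = (n : A ⧸ P.under A) := by
      apply Ideal.injective_algebraMap_quotient_residueField (P.under A)
      rw [map_natCast, map_natCast]
      exact hmn
    have e1 : ((m : A ⧸ P.under A)) = Ideal.Quotient.mk _ ((m : ℕ) : A) :=
      (map_natCast _ m).symm
    have e2 : ((n : A ⧸ P.under A)) = Ideal.Quotient.mk _ ((n : ℕ) : A) :=
      (map_natCast _ n).symm
    rw [e1, e2, Ideal.Quotient.eq] at h1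
    -- `m - n` is a unit of `A`
    have hd : ((m : L) - (n : L)) ≠ 0 := by
      rw [sub_ne_zero]
      exact fun h => hne (Nat.cast_injective h)
    obtain ⟨a, ha⟩ := hL ((m : L) - (n : L))
    obtain ⟨b, hb⟩ := hL ((m : L) - (n : L))⁻¹
    have hinj := IsFractionRing.injective A K
    have hab : a * b = 1 := by
      apply hinj
      rw [map_mul, ha, hb, ← map_mul, mul_inv_cancel₀ hd, map_one, map_one]
    have ha' : a = (m : A) - (n : A) := by
      apply hinj
      rw [ha, map_sub, map_sub, map_natCast, map_natCast, map_natCast, map_natCast]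
    have hu : IsUnit ((m : A) - (n : A)) := ha' ▸ IsUnit.of_mul_eq_one b hab
    have hpr : (P.under A).IsPrime := inferInstance
    exact hpr.ne_top ((Ideal.eq_top_iff_one _).2 (by
      obtain ⟨u, hu⟩ := hu
      have := (P.under A).mul_mem_left (↑u⁻¹ : A) h1
      rwa [← hu, Units.inv_mul] at this))
  exact Ideal.ramificationIdx_eq_one_iff.1 he

end Dict

/-! ## Part 1b: the four statements from the ramification data of `j` in `Place` form -/

/-- **Ramification data of `j : F → P¹` in terms of the places of `F / L`**: above `j = 0` the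
indices divide `3`, above `j = 1728` they divide `2`, above `j = ∞` they divide `N`, and at every
other place some polynomial in `j` with coefficients in `L` is a uniformiser. -/
structure rml_RamData (L : Type*) {F : Type*} [Field L] [Field F] [Algebra L F] (j : F) (N : ℕ) :
    Prop where
  ne_zero : j ≠ 0
  ne_one : j - 1728 ≠ 0
  zero : ∀ Q : Place L F, 0 < Q.ord j → Q.ord j ∣ 3
  one : ∀ Q : Place L F, 0 < Q.ord (j - 1728) → Q.ord (j - 1728) ∣ 2
  infty : ∀ Q : Place L F, Q.ord j < 0 → Q.ord j ∣ (N : ℤ)
  generic : ∀ Q : Place L F, Q.ord j = 0 → Q.ord (j - 1728) = 0 →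
    ∃ h : Polynomial L, Q.ord (Polynomial.aeval j h) = 1

section Four

variable {L : Type*} (K : Type*) {F : Type*} [Field L] [Field K] [Field F] [Algebra L K]
  [Algebra K F] [Algebra L F] [IsScalarTower L K F] [FiniteDimensional K F]
  [Algebra.IsSeparable K F]
  (A : Type*) [CommRing A] [IsDomain A] [IsDiscreteValuationRing A] [Algebra A K]
  [IsFractionRing A K] [Algebra A F] [IsScalarTower A K F]
  {j : K} {N : ℕ}

omit [Field L] [Algebra L K] [Algebra L F] [IsScalarTower L K F] [FiniteDimensional K F]
  [Algebra.IsSeparable K F] [IsDiscreteValuationRing A] in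
theorem rml_ne_zero_of_algebraMap {x : K} {a : A} (hax : algebraMap A K a = x)
    (hx : algebraMap K F x ≠ 0) : a ≠ 0 := by
  rintro rfl
  rw [map_zero] at hax
  rw [← hax, map_zero] at hx
  exact hx rfl

/-- **(R2)**, abstract carrier: `j ∈ 𝔪_A` ⟹ every ramification index divides `3`. -/
theorem rml_ram_zero (hL : ∀ c : L, algebraMap L K c ∈ (algebraMap A K).range)
    (D : rml_RamData L (algebraMap K F j) N) {a : A} (haj : algebraMap A K a = j)
    (ha : ¬ IsUnit a) (P : Ideal (integralClosure A F)) [P.IsPrime] (hP : P ≠ ⊥) :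
    P.ramificationIdx A ∣ 3 := by
  have hF : algebraMap A F a = algebraMap K F j := by
    rw [IsScalarTower.algebraMap_apply A K F, haj]
  have h := rml_ramificationIdx_dvd K A hL (rml_ne_zero_of_algebraMap K A haj D.ne_zero) ha 3
    (by rw [hF]; exact D.zero) P hP
  exact Int.natCast_dvd_natCast.1 (by exact_mod_cast h)

/-- **(R3)**, abstract carrier: `j - 1728 ∈ 𝔪_A` ⟹ every ramification index divides `2`. -/
theorem rml_ram_one (hL : ∀ c : L, algebraMap L K c ∈ (algebraMap A K).range)
    (D : rml_RamData L (algebraMap K F j) N) {a : A} (haj : algebraMap A K a = j - 1728)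
    (ha : ¬ IsUnit a) (P : Ideal (integralClosure A F)) [P.IsPrime] (hP : P ≠ ⊥) :
    P.ramificationIdx A ∣ 2 := by
  have hF : algebraMap A F a = algebraMap K F j - 1728 := by
    rw [IsScalarTower.algebraMap_apply A K F, haj, map_sub, map_ofNat]
  have hne : algebraMap K F (j - 1728) ≠ 0 := by
    rw [map_sub, map_ofNat]; exact D.ne_one
  have h := rml_ramificationIdx_dvd K A hL (rml_ne_zero_of_algebraMap K A haj hne) ha 2
    (by rw [hF]; exact D.one) P hP
  exact Int.natCast_dvd_natCast.1 (by exact_mod_cast h)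

/-- **(R4)**, abstract carrier: `j⁻¹ ∈ 𝔪_A` ⟹ every ramification index divides `N`. -/
theorem rml_ram_infty (hL : ∀ c : L, algebraMap L K c ∈ (algebraMap A K).range)
    (D : rml_RamData L (algebraMap K F j) N) {a : A} (haj : algebraMap A K a = j⁻¹)
    (ha : ¬ IsUnit a) (P : Ideal (integralClosure A F)) [P.IsPrime] (hP : P ≠ ⊥) :
    P.ramificationIdx A ∣ N := by
  have hF : algebraMap A F a = (algebraMap K F j)⁻¹ := by
    rw [IsScalarTower.algebraMap_apply A K F, haj, map_inv₀]
  have hne : algebraMap K F j⁻¹ ≠ 0 := by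
    rw [map_inv₀]; exact inv_ne_zero D.ne_zero
  have h := rml_ramificationIdx_dvd K A hL (rml_ne_zero_of_algebraMap K A haj hne) ha (N : ℤ)
    (by
      rw [hF]
      intro Q hQ
      rw [Place.ord_inv] at hQ ⊢
      rw [neg_dvd]
      exact D.infty Q (by omega)) P hP
  exact Int.natCast_dvd_natCast.1 h

omit [Algebra K F] [Algebra L F] [IsScalarTower L K F] [FiniteDimensional K F]
  [Algebra.IsSeparable K F] [IsDiscreteValuationRing A] [Algebra A F] [IsScalarTower A K F]
  [IsDomain A] [IsFractionRing A K] in
theorem rml_aeval_mem (hL : ∀ c : L, algebraMap L K c ∈ (algebraMap A K).range) {x : K}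
    (hx : x ∈ (algebraMap A K).range) (h : Polynomial L) :
    Polynomial.aeval x h ∈ (algebraMap A K).range := by
  rw [Polynomial.aeval_eq_sum_range]
  refine Subring.sum_mem _ (fun i _ => ?_)
  rw [Algebra.smul_def]
  exact Subring.mul_mem _ (hL _) (Subring.pow_mem _ hx _)

/-- **(R1)**, abstract carrier: `j`, `j - 1728` units of `A` ⟹ `F` is unramified over `A`. -/
theorem rml_unram [CharZero L] (hL : ∀ c : L, algebraMap L K c ∈ (algebraMap A K).range)
    (D : rml_RamData L (algebraMap K F j) N) {a : A} (haj : algebraMap A K a = j)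
    (ha : IsUnit a) (ha' : IsUnit (a - 1728)) : jt_Unram A F := by
  intro P _ hP
  have hF : algebraMap A F a = algebraMap K F j := by
    rw [IsScalarTower.algebraMap_apply A K F, haj]
  have hF' : algebraMap A F (a - 1728) = algebraMap K F j - 1728 := by
    rw [map_sub, map_ofNat, hF]
  have h0 : (rml_place K A hL P hP).ord (algebraMap K F j) = 0 := by
    rw [← hF, ← ha.unit_spec]; exact rml_place_ord_unit K A hL P hP _
  have h1 : (rml_place K A hL P hP).ord (algebraMap K F j - 1728) = 0 := by
    rw [← hF', ← ha'.unit_spec]; exact rml_place_ord_unit K A hL P hP _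
  obtain ⟨h, hh⟩ := D.generic _ h0 h1
  obtain ⟨b, hb⟩ := rml_aeval_mem K A hL ⟨a, haj⟩ h
  refine rml_isUnramifiedAt K A hL P hP (a := b) ?_
  rw [IsScalarTower.algebraMap_apply A K F, hb, ← Polynomial.aeval_algebraMap_apply]
  exact hh

end Four


section SubringForm

variable {L K' E : Type*} [Field L] [Field K'] [Field E] [Algebra L K'] [Algebra K' E]
  [Algebra L E] [IsScalarTower L K' E] [FiniteDimensional K' E] [Algebra.IsSeparable K' E]
  (V0 : Subring K') [IsDiscreteValuationRing V0] [IsFractionRing V0 K'] {j' : K'} {N : ℕ}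

/-- **(R2)**, `Subring` form: `V0` a discrete valuation ring of `K'` containing `L`,
`j' ∈ 𝔪_V0` ⟹ every nonzero prime of `integralClosure V0 E` has ramification index dividing `3`. -/
theorem rml_ram_zero_subring (hL : ∀ a : L, algebraMap L K' a ∈ V0)
    (D : rml_RamData L (algebraMap K' E j') N) (hj : j' ∈ V0)
    (hjm : ¬ IsUnit (⟨j', hj⟩ : V0))
    (P : Ideal (integralClosure V0 E)) [P.IsPrime] (hP : P ≠ ⊥) :
    P.ramificationIdx V0 ∣ 3 :=
  rml_ram_zero K' V0 (fun c => ⟨⟨_, hL c⟩, rfl⟩) D (a := ⟨j', hj⟩) rfl hjm P hP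

/-- **(R3)**, `Subring` form. -/
theorem rml_ram_one_subring (hL : ∀ a : L, algebraMap L K' a ∈ V0)
    (D : rml_RamData L (algebraMap K' E j') N) (hj : j' - 1728 ∈ V0)
    (hjm : ¬ IsUnit (⟨j' - 1728, hj⟩ : V0))
    (P : Ideal (integralClosure V0 E)) [P.IsPrime] (hP : P ≠ ⊥) :
    P.ramificationIdx V0 ∣ 2 :=
  rml_ram_one K' V0 (fun c => ⟨⟨_, hL c⟩, rfl⟩) D (a := ⟨j' - 1728, hj⟩) rfl hjm P hP

/-- **(R4)**, `Subring` form. -/
theorem rml_ram_infty_subring (hL : ∀ a : L, algebraMap L K' a ∈ V0)
    (D : rml_RamData L (algebraMap K' E j') N) (hj : j'⁻¹ ∈ V0)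
    (hjm : ¬ IsUnit (⟨j'⁻¹, hj⟩ : V0))
    (P : Ideal (integralClosure V0 E)) [P.IsPrime] (hP : P ≠ ⊥) :
    P.ramificationIdx V0 ∣ N :=
  rml_ram_infty K' V0 (fun c => ⟨⟨_, hL c⟩, rfl⟩) D (a := ⟨j'⁻¹, hj⟩) rfl hjm P hP

/-- **(R1)**, `Subring` form: `j'` and `j' - 1728` units of `V0` ⟹ `E` is unramified over `V0`. -/
theorem rml_unram_subring [CharZero L] (hL : ∀ a : L, algebraMap L K' a ∈ V0)
    (D : rml_RamData L (algebraMap K' E j') N) (hj : j' ∈ V0)
    (hu : IsUnit (⟨j', hj⟩ : V0)) (hj1 : j' - 1728 ∈ V0)
    (hu1 : IsUnit (⟨j' - 1728, hj1⟩ : V0)) : jt_UnramAt V0 E := by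
  refine rml_unram K' V0 (fun c => ⟨⟨_, hL c⟩, rfl⟩) D (a := ⟨j', hj⟩) rfl hu ?_
  have : (⟨j', hj⟩ : V0) - 1728 = ⟨j' - 1728, hj1⟩ := by
    ext
    push_cast
    rfl
  rw [this]
  exact hu1

end SubringForm

end Fermat.Agent.JT3
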