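import Mathlib
import Fermat.Agent.S24.Assembly

/-!
# JT3 / S18 leaf [SX]: ramification of `j : X₀(N) → X(1)` over `Q̄` (prefix `sx_`)

Export from the S24 library (Lemma A, `po_Hyp.card_orbit_eq`: the ramification index at a place
above a point is the size of an orbit of the local monodromy on `SL(2, ℤ) ⧸ Γ₀(N)`):

* `sx_ord_dvd_three`: at a zero of `j` the order of `j` divides `3`;
* `sx_ord_dvd_two`: at a zero of `j - 1728` the order of `j - 1728` divides `2`;
* `sx_ord_dvd_level`: at a pole of `j` the order of `j` divides `N`;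
* `sx_ord_eq_one`: at a zero of `j - c`, `c ≠ 0, 1728`, the order of `j - c` is `1`.
-/

set_option autoImplicit false
set_option linter.unusedSectionVars false
set_option linter.style.haveILetI false

noncomputable section

namespace Fermat.Agent.JT3

open AlgebraicCurve IntermediateField ModularCurve MulAction
open scoped MatrixGroups
open Fermat.Agent.S24 Fermat.Agent.S24.Br

/-- **Lemma B**: in the situation of Lemma A (`asm_lemmaA`), if `g ^ k` acts trivially on the
index set then every ramification index above `π = 0` divides `k`. -/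
theorem sx_ord_dvd {K K' F X G : Type*} [Field K] [Field K'] [Algebra K K'] [CharZero K']
    [Field F] [Algebra K F] [Finite X] [Group G] [MulAction G X]
    (π : F) (m : ℕ) (hm : 0 < m) (ζ₀ : K') (hζ₀ : IsPrimitiveRoot ζ₀ m) (g : G)
    (φ : X → (F →ₐ[K] LaurentSeries K')) (hφ : Function.Injective φ)
    (p0 : LaurentSeries K') (hp0 : p0.order = (m : ℤ)) (hπ : ∀ x, φ x π = p0)
    (htw : ∀ (x : X) (f : F) (i : ℤ), (φ (g • x) f).coeff i = ζ₀ ^ i * (φ x f).coeff i)
    (hres : ∀ v : Place K F, Function.Surjective (algebraMap K v.ResidueField))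
    (hfin : {v : Place K F | 0 < v.ord π}.Finite)
    (hsum : ∑ v ∈ hfin.toFinset, v.ord π = (Nat.card X : ℤ))
    (k : ℕ) (hk : ∀ x : X, g ^ k • x = x) (v : Place K F) (hv : 0 < v.ord π) :
    v.ord π ∣ (k : ℤ) := by
  classical
  haveI : Fintype X := Fintype.ofFinite X
  have H : po_Hyp π m ζ₀ φ p0 (MulAction.toPerm g) :=
    ⟨hm, hζ₀, hφ, hp0, hπ, fun x f i => htw x f i, fun v _ => hres v⟩
  have hcard := po_card_places_eq_card_orbits (K := K) (K' := K') (F := F) π m hm ζ₀ hζ₀ φ hφ p0
    hp0 hπ (MulAction.toPerm g) (fun x f i => htw x f i) (fun v _ => hres v) hfin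
    (by rw [hsum, Nat.card_eq_fintype_card])
  haveI : Finite {v : Place K F // 0 < v.ord π} := hfin.to_subtype
  have hbij : Function.Bijective H.orbitPlace :=
    H.orbitPlace_injective.bijective_of_nat_card_le hcard.le
  obtain ⟨ω, hω⟩ := hbij.2 ⟨v, hv⟩
  have h1 := H.card_orbit_eq ω
  rw [hω] at h1
  rw [← h1]
  clear hω h1
  induction ω using Quotient.inductionOn' with
  | h x =>
  rw [MulAction.orbitRel.Quotient.orbit_mk]
  have : Fintype (MulAction.orbit (Subgroup.zpowers (MulAction.toPerm g : Equiv.Perm X)) x) :=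
    Fintype.ofFinite _
  rw [Nat.card_eq_fintype_card, ← MulAction.minimalPeriod_eq_card]
  norm_cast
  apply Function.IsPeriodicPt.minimalPeriod_dvd
  rw [Function.IsPeriodicPt, Function.IsFixedPt, smul_iterate]
  have h2 : (MulAction.toPerm g : Equiv.Perm X) ^ k = MulAction.toPerm (g ^ k) :=
    (map_pow (MulAction.toPermHom G X) g k).symm
  rw [h2]
  exact hk x

section Main

variable (N : ℕ) [NeZero N]

open ModularGroup

/-- At a zero of `j` the ramification index divides `3`. -/
theorem sx_ord_dvd_three (v : Place Kbar (Fbar N)) (hv : 0 < v.ord (ff_jF N)) :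
    v.ord (ff_jF N) ∣ 3 := by
  haveI := asm_finite N
  haveI : Algebra.IsAlgebraic Kbar⟮ff_jF N⟯ (Fbar N) := Algebra.IsAlgebraic.of_finite _ _
  have hx := asm_transcendental N
  obtain ⟨φ, p0, ζ, g, hζ, hg, hφ, hp0, hπ, htw⟩ := an_family_rho N
  have hk : ∀ x : Comb.Q N, g ^ 3 • x = x := by
    intro x
    rcases hg with rfl | rfl
    · exact Comb.ST_cube_smul x
    · rw [inv_pow, inv_smul_eq_iff, Comb.ST_cube_smul]
  have hv' : 0 < v.ord (ff_jF N - algebraMap Kbar _ 0) := by simpa using hv
  have h := sx_ord_dvd (K := Kbar) (K' := ℂ) (F := Fbar N) (X := Comb.Q N) (G := SL(2, ℤ))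
    (ff_jF N - algebraMap Kbar _ 0) 3 (by norm_num) ζ hζ g φ hφ p0
    (by simpa using hp0) (by simpa using hπ) htw
    (hw_algebraMap_residueField_surjective (ff_jF N))
    (hw_finite_fiber hx 0)
    (by rw [← asm_finrank N]; exact hw_sum_fiber_toFinset hx 0) 3 hk v hv'
  simpa using h

/-- At a zero of `j - 1728` the ramification index divides `2`. -/
theorem sx_ord_dvd_two (v : Place Kbar (Fbar N))
    (hv : 0 < v.ord (ff_jF N - algebraMap Kbar _ 1728)) :
    v.ord (ff_jF N - algebraMap Kbar _ 1728) ∣ 2 := by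
  haveI := asm_finite N
  haveI : Algebra.IsAlgebraic Kbar⟮ff_jF N⟯ (Fbar N) := Algebra.IsAlgebraic.of_finite _ _
  have hx := asm_transcendental N
  obtain ⟨φ, p0, ζ, g, hζ, hg, hφ, hp0, hπ, htw⟩ := an_family_I N
  have hk : ∀ x : Comb.Q N, g ^ 2 • x = x := by
    intro x
    rcases hg with rfl | rfl
    · exact Comb.S_sq_smul x
    · rw [inv_pow, inv_smul_eq_iff, Comb.S_sq_smul]
  have h := sx_ord_dvd (K := Kbar) (K' := ℂ) (F := Fbar N) (X := Comb.Q N) (G := SL(2, ℤ))
    (ff_jF N - algebraMap Kbar _ 1728) 2 (by norm_num) ζ hζ g φ hφ p0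
    (by simpa using hp0) hπ htw
    (hw_algebraMap_residueField_surjective (ff_jF N))
    (hw_finite_fiber hx 1728)
    (by rw [← asm_finrank N]; exact hw_sum_fiber_toFinset hx 1728) 2 hk v hv
  simpa using h

/-- `T ^ N` acts trivially on `SL(2, ℤ) ⧸ Γ₀(N)`. -/
theorem sx_T_pow_smul (q : Comb.Q N) : T ^ N • q = q := by
  induction q using QuotientGroup.induction_on with
  | H g =>
    rw [Comb.smul_coset, Comb.coset_eq_iff]
    have h1 : (T ^ N * g) 0 0 = g 0 0 + (N : ℤ) * g 1 0 := by
      have := Comb.T_zpow_mul_zero_zero (N : ℤ) g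
      rwa [zpow_natCast] at this
    have h2 : (T ^ N * g) 1 0 = g 1 0 := by
      have := Comb.T_zpow_mul_one_zero (N : ℤ) g
      rwa [zpow_natCast] at this
    rw [h1, h2]
    push_cast
    rw [ZMod.natCast_self]
    ring

/-- At a pole of `j` the ramification index divides the level. -/
theorem sx_ord_dvd_level (v : Place Kbar (Fbar N)) (hv : v.ord (ff_jF N) < 0) :
    v.ord (ff_jF N) ∣ (N : ℤ) := by
  haveI := asm_finite N
  haveI : Algebra.IsAlgebraic Kbar⟮ff_jF N⟯ (Fbar N) := Algebra.IsAlgebraic.of_finite _ _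
  have hx := asm_transcendental N
  obtain ⟨φ, p0, ζ, g, hζ, hg, hφ, hp0, hπ, htw⟩ := an_family_infty N
  have hk : ∀ x : Comb.Q N, g ^ N • x = x := by
    intro x
    rcases hg with rfl | rfl
    · exact sx_T_pow_smul N x
    · rw [inv_pow, inv_smul_eq_iff, sx_T_pow_smul]
  have hfin : {v : Place Kbar (Fbar N) | 0 < v.ord (ff_jF N)⁻¹}.Finite := by
    rw [asm_infty_set]; exact hw_finite_poles hx
  have hv' : 0 < v.ord (ff_jF N)⁻¹ := by
    rw [Place.ord_inv]; omega
  have h := sx_ord_dvd (K := Kbar) (K' := ℂ) (F := Fbar N) (X := Comb.Q N) (G := SL(2, ℤ))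
    (ff_jF N)⁻¹ N (Nat.pos_of_ne_zero (NeZero.ne N)) ζ hζ g φ hφ p0
    hp0 hπ htw
    (hw_algebraMap_residueField_surjective (ff_jF N))
    hfin
    (by
      have h1 := hw_sum_poles_toFinset hx
      have h2 : hfin.toFinset = (hw_finite_poles hx).toFinset := by
        ext v
        simp only [Set.Finite.mem_toFinset]
        rw [asm_infty_set]
      rw [h2, ← asm_finrank N]
      have h3 : ∑ v ∈ (hw_finite_poles hx).toFinset, v.ord (ff_jF N)⁻¹
          = - ∑ v ∈ (hw_finite_poles hx).toFinset, v.ord (ff_jF N) := by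
        rw [← Finset.sum_neg_distrib]
        exact Finset.sum_congr rfl (fun v _ => Place.ord_inv v _)
      rw [h3, h1, neg_neg]) N hk v hv'
  rw [Place.ord_inv, neg_dvd] at h
  exact h

/-- Outside `j = 0, 1728, ∞` the map `j` is unramified. -/
theorem sx_ord_eq_one (c : Kbar) (h0 : c ≠ 0) (h1 : c ≠ 1728) (v : Place Kbar (Fbar N))
    (hv : 0 < v.ord (ff_jF N - algebraMap Kbar _ c)) :
    v.ord (ff_jF N - algebraMap Kbar _ c) = 1 := by
  by_contra hne
  have h2 : 1 < v.ord (ff_jF N - algebraMap Kbar _ c) := by omega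
  rcases asm_unramified N c v h2 with h | h
  · exact h0 h
  · exact h1 h

end Main

end Fermat.Agent.JT3
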