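import Mathlib
import Fermat.Agent.JT3.Export.RamL
import Fermat.Agent.JT3.Export.S24Ram
import Fermat.Agent.JT3.Descent.FieldOfDef
import Fermat.Agent.JT3.Inst.Defs
import Fermat.Agent.JT3.Gateway.ValPlace

/-!
# JT3 / Route R (S18), leaf [RAM-L], part 2: the ramification data of `j` on `F_N / L`
(prefix `rml_`)

* `rml_exists_place_comap`, `rml_RamData.map` : places and ramification data transport along an
  isomorphism of function fields;
* `rml_ramData_bc`  : the data for `laurentBaseChange L (modularFunctionFieldFull N)` from the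
  facts over `Q̄` (`sx_ord_dvd_three`, `sx_ord_dvd_two`, `sx_ord_dvd_level`, `sx_ord_eq_one`) and
  `dsc_bc_exists_place`;
* `rml_ramData`     : the data for `(lg_F L N, j)`;
* `rml_ramData2`    : the data for `(lg_F2 L N, j(q²))`.
-/

set_option autoImplicit false
set_option linter.style.haveILetI false
set_option linter.unusedSectionVars false

noncomputable section

open AlgebraicCurve ModularCurve Polynomial

namespace Fermat.Agent.JT3

open Fermat.Agent.S24

section Transport

variable {L F F' : Type*} [Field L] [Field F] [Field F'] [Algebra L F] [Algebra L F']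

/-- places transport along an isomorphism of function fields -/
theorem rml_exists_place_comap (ψ : F ≃ₐ[L] F') (Q' : Place L F') :
    ∃ Q : Place L F, ∀ x : F, Q.ord x = Q'.ord (ψ x) := by
  have hψ : ∀ z : F, z ≠ 0 → ψ z ≠ 0 := fun z hz => by
    intro h0
    exact hz ((map_eq_zero ψ).1 h0)
  have hv : gw_IsVal L (fun z : F => Q'.ord (ψ z)) := by
    refine ⟨fun a b ha hb => ?_, fun a b ha hb hab => ?_, fun c hc => ?_⟩
    · show Q'.ord (ψ (a * b)) = _
      rw [map_mul, Q'.ord_mul (hψ a ha) (hψ b hb)]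
    · show min (Q'.ord (ψ a)) (Q'.ord (ψ b)) ≤ Q'.ord (ψ (a + b))
      rw [map_add]
      exact hw_ord_add_ge Q' (hψ a ha) (hψ b hb) (by rw [← map_add]; exact hψ _ hab)
    · show Q'.ord (ψ (algebraMap L F c)) = 0
      rw [AlgEquiv.commutes]
      exact hw_ord_algebraMap Q' c
  obtain ⟨π, hπ⟩ := IsDiscreteValuationRing.exists_irreducible Q'.toValuationSubring
  have hπ1 : Q'.ord (π : F') = 1 := Q'.ord_coe_irreducible hπ
  have hx0 : Q'.ord (ψ (ψ.symm (π : F'))) = 1 := by rw [AlgEquiv.apply_symm_apply, hπ1]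
  have hne : ψ.symm (π : F') ≠ 0 := by
    intro h
    rw [h, map_zero, Place.ord_zero] at hx0
    exact zero_ne_one hx0
  obtain ⟨P, e, he, hP⟩ := gw_val_eq_ord L hv ⟨ψ.symm (π : F'), hne, by
    show Q'.ord (ψ (ψ.symm (π : F'))) ≠ 0
    rw [hx0]; exact one_ne_zero⟩
  have he1 : e = 1 := by
    have h1 := hP _ hne
    simp only [hx0] at h1
    have h2 : e ∣ 1 := Dvd.intro _ h1.symm
    exact Int.eq_one_of_dvd_one he.le h2
  refine ⟨P, fun x => ?_⟩
  rcases eq_or_ne x 0 with rfl | hx
  · simp
  · have := hP x hx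
    simp only [he1, one_mul] at this
    exact this.symm

/-- ramification data transport along an isomorphism of function fields -/
theorem rml_RamData.map (ψ : F ≃ₐ[L] F') {j : F} {N : ℕ} (D : rml_RamData L j N) :
    rml_RamData L (ψ j) N := by
  have h1728 : ψ j - 1728 = ψ (j - 1728) := by rw [map_sub, map_ofNat]
  refine ⟨fun h => D.ne_zero ((map_eq_zero ψ).1 h), ?_, fun Q' => ?_, fun Q' => ?_, fun Q' => ?_,
    fun Q' => ?_⟩
  · rw [h1728]
    exact fun h => D.ne_one ((map_eq_zero ψ).1 h)
  · obtain ⟨Q, hQ⟩ := rml_exists_place_comap ψ Q'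
    rw [← hQ]
    exact D.zero Q
  · obtain ⟨Q, hQ⟩ := rml_exists_place_comap ψ Q'
    rw [h1728, ← hQ]
    exact D.one Q
  · obtain ⟨Q, hQ⟩ := rml_exists_place_comap ψ Q'
    rw [← hQ]
    exact D.infty Q
  · obtain ⟨Q, hQ⟩ := rml_exists_place_comap ψ Q'
    rw [h1728, ← hQ, ← hQ]
    intro h0 h1
    obtain ⟨h, hh⟩ := D.generic Q h0 h1
    refine ⟨h, ?_⟩
    have h2 : aeval (ψ j) h = ψ (aeval j h) :=
      Polynomial.aeval_algHom_apply (ψ : F →ₐ[L] F') j h
    rw [h2, ← hQ]
    exact hh

end Transport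

section SimpleRoot

variable {K F : Type*} [Field K] [Field F] [Algebra K F]

/-- a polynomial with constant coefficients in an element of the valuation ring is in the
valuation ring -/
theorem rml_aeval_mem_valuationSubring (v : Place K F) {x : F} (hx : x ∈ v.toValuationSubring)
    (p : K[X]) : aeval x p ∈ v.toValuationSubring := by
  rw [Polynomial.aeval_eq_sum_range]
  refine Subring.sum_mem v.toValuationSubring.toSubring (fun i _ => ?_)
  rw [Algebra.smul_def]
  exact v.toValuationSubring.mul_mem _ _ (v.algebraMap_mem' _)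
    (pow_mem hx i)

/-- if `c` is a simple root of `p` and `x - c` is a uniformiser at `v`, then so is `p(x)`. -/
theorem rml_ord_aeval_eq_one (v : Place K F) (x : F) (c : K) (p : K[X]) (hpc : p.eval c = 0)
    (hsep : p.derivative.eval c ≠ 0) (hv : v.ord (x - algebraMap K F c) = 1) :
    v.ord (aeval x p) = 1 := by
  set t : F := x - algebraMap K F c with ht
  have ht0 : t ≠ 0 := by
    intro h
    rw [h, Place.ord_zero] at hv
    exact zero_ne_one hv
  have htmem : t ∈ v.toValuationSubring := (hw_mem_iff_ord_nonneg v ht0).2 (by omega)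
  have hxmem : x ∈ v.toValuationSubring := by
    have : x = t + algebraMap K F c := by rw [ht]; ring
    rw [this]
    exact v.toValuationSubring.add_mem _ _ htmem (v.algebraMap_mem' c)
  -- `p = (X - c) g`, `g = g(c) + (X - c) r`
  set g : K[X] := p /ₘ (X - C c) with hg
  have hpg : (X - C c) * g = p := Polynomial.mul_divByMonic_eq_iff_isRoot.2 hpc
  set r : K[X] := g /ₘ (X - C c) with hr
  have hgr : C (g.eval c) + (X - C c) * r = g := by
    have := Polynomial.modByMonic_add_div g (X - C c)
    rwa [Polynomial.modByMonic_X_sub_C_eq_C_eval] at this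
  have hgc : g.eval c = p.derivative.eval c := by
    rw [← hpg, Polynomial.derivative_mul]
    simp
  have hgc0 : g.eval c ≠ 0 := by rw [hgc]; exact hsep
  have hxg : aeval x g = algebraMap K F (g.eval c) + t * aeval x r := by
    conv_lhs => rw [← hgr]
    simp [ht]
  have hxp : aeval x p = t * aeval x g := by
    conv_lhs => rw [← hpg]
    simp [ht]
  have hc0 : algebraMap K F (g.eval c) ≠ 0 := by simpa using hgc0
  have hordg : v.ord (aeval x g) = 0 ∧ aeval x g ≠ 0 := by
    rcases eq_or_ne (aeval x r) 0 with hr0 | hr0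
    · rw [hxg, hr0, mul_zero, add_zero]
      exact ⟨hw_ord_algebraMap v _, hc0⟩
    · have hrmem := rml_aeval_mem_valuationSubring v hxmem r
      have hr1 : 0 ≤ v.ord (aeval x r) := (hw_mem_iff_ord_nonneg v hr0).1 hrmem
      have hts : t * aeval x r ≠ 0 := mul_ne_zero ht0 hr0
      have hlt : v.ord (algebraMap K F (g.eval c)) < v.ord (t * aeval x r) := by
        rw [hw_ord_algebraMap, Place.ord_mul _ ht0 hr0, hv]
        omega
      have h1 := hw_ord_add_eq_of_lt v hc0 hts hlt
      rw [hw_ord_algebraMap] at h1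
      refine ⟨by rw [hxg]; exact h1, ?_⟩
      rw [hxg]
      intro h0
      have h2 : t * aeval x r = -algebraMap K F (g.eval c) := eq_neg_of_add_eq_zero_right h0
      rw [h2, hw_ord_neg, hw_ord_algebraMap] at hlt
      exact lt_irrefl _ hlt
  rw [hxp, Place.ord_mul _ ht0 hordg.2, hv, hordg.1, add_zero]

end SimpleRoot

section Inst

open Fermat.Agent.S24.Br IntermediateField

variable (L : Type*) [Field L] [Algebra ℚ L] [Algebra L Kbar] [IsScalarTower ℚ L Kbar]
  (N : ℕ) [NeZero N]

theorem rml_isAlgebraic_bar : Algebra.IsAlgebraic L Kbar := by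
  have _ : Algebra.IsAlgebraic ℚ Kbar := AlgebraicClosure.isAlgebraic ℚ
  exact Algebra.IsAlgebraic.tower_top (K := ℚ) L

/-- `j` lies in the base-changed field -/
theorem rml_j_mem_bc : jqModC L ∈ laurentBaseChange L (modularFunctionFieldFull N) := by
  rw [← lg_F_eq_laurentBaseChange]
  exact jqModC_mem_full L N

/-- `j` as an element of the base-changed field -/
def rml_jbc : ↥(laurentBaseChange L (modularFunctionFieldFull N)) :=
  ⟨jqModC L, rml_j_mem_bc L N⟩

theorem rml_bcHom_j :
    dsc_bcHom L Kbar (modularFunctionFieldFull N) (rml_jbc L N) = ff_jF N := by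
  apply Subtype.ext
  rw [dsc_bcHom_coe]
  show coeffMap (algebraMap L Kbar) (jqModC L) = barGen 1
  rw [coeffMap_jqModC, barGen, qExpand_one_apply, coeffEmb, ← jqModC_rat, coeffMap_jqModC]

theorem rml_bcHom_aeval (h : L[X]) :
    dsc_bcHom L Kbar (modularFunctionFieldFull N) (aeval (rml_jbc L N) h) =
      aeval (ff_jF N) (h.map (algebraMap L Kbar)) := by
  rw [Polynomial.aeval_def, Polynomial.aeval_def, Polynomial.hom_eval₂, Polynomial.eval₂_map,
    rml_bcHom_j]
  congr 1
  exact RingHom.ext fun c => dsc_bcHom_algebraMap L Kbar (modularFunctionFieldFull N) c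

theorem rml_ff_jF_ne (c : Kbar) : ff_jF N - algebraMap Kbar (Fbar N) c ≠ 0 := by
  intro h
  have h1 : ff_jF N = algebraMap Kbar (Fbar N) c := sub_eq_zero.1 h
  exact (asm_transcendental N) (h1 ▸ isAlgebraic_algebraMap c)

theorem rml_ff_jF_ne_zero : ff_jF N ≠ 0 := by
  have := rml_ff_jF_ne N 0
  rwa [map_zero, sub_zero] at this

/-- every place of `F_L / L` extends to a place of `F_{Q̄} / Q̄` with the same orders -/
theorem rml_exists_place_bar
    (Q : Place L ↥(laurentBaseChange L (modularFunctionFieldFull N))) :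
    ∃ v : Place Kbar (Fbar N), ∀ x, v.ord (dsc_bcHom L Kbar (modularFunctionFieldFull N) x) =
      Q.ord x := by
  haveI := rml_isAlgebraic_bar L
  exact dsc_bc_exists_place L Kbar (modularFunctionFieldFull N) Q

theorem rml_bcHom_sub_ofNat (n : ℕ) [n.AtLeastTwo] :
    dsc_bcHom L Kbar (modularFunctionFieldFull N) (rml_jbc L N - OfNat.ofNat n) =
      ff_jF N - algebraMap Kbar (Fbar N) (OfNat.ofNat n) := by
  rw [map_sub, rml_bcHom_j, map_ofNat, map_ofNat]

/-- **the ramification data of `j` on `F_N / L`**, base-change presentation of the field. -/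
theorem rml_ramData_bc : rml_RamData L (rml_jbc L N) N := by
  haveI := asm_finite N
  haveI : Algebra.IsAlgebraic Kbar⟮ff_jF N⟯ (Fbar N) := Algebra.IsAlgebraic.of_finite _ _
  haveI := rml_isAlgebraic_bar L
  haveI : CharZero L := algebraRat.charZero L
  set ι := dsc_bcHom L Kbar (modularFunctionFieldFull N) with hι
  have hι0 : ∀ x, ι x = 0 → x = 0 := fun x hx => (map_eq_zero ι).1 hx
  refine ⟨fun h => rml_ff_jF_ne_zero N ?_, fun h => rml_ff_jF_ne N 1728 ?_, fun Q => ?_,
    fun Q => ?_, fun Q => ?_, fun Q => ?_⟩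
  · rw [← rml_bcHom_j L N, h, map_zero]
  · rw [← rml_bcHom_sub_ofNat L N 1728, h, map_zero]
  · obtain ⟨v, hv⟩ := rml_exists_place_bar L N Q
    rw [← hv, rml_bcHom_j]
    exact sx_ord_dvd_three N v
  · obtain ⟨v, hv⟩ := rml_exists_place_bar L N Q
    rw [← hv, rml_bcHom_sub_ofNat]
    exact sx_ord_dvd_two N v
  · obtain ⟨v, hv⟩ := rml_exists_place_bar L N Q
    rw [← hv, rml_bcHom_j]
    exact sx_ord_dvd_level N v
  · obtain ⟨v, hv⟩ := rml_exists_place_bar L N Q
    rw [← hv, ← hv, rml_bcHom_sub_ofNat, rml_bcHom_j]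
    intro h0 h1
    have hjmem : ff_jF N ∈ v.toValuationSubring :=
      (hw_mem_iff_ord_nonneg v (rml_ff_jF_ne_zero N)).2 h0.ge
    obtain ⟨c, hc⟩ := hw_exists_const (ff_jF N) v hjmem
    have hc' : 0 < v.ord (ff_jF N - algebraMap Kbar (Fbar N) c) := by
      rcases hc with hc | hc
      · exact absurd (sub_eq_zero.2 hc) (rml_ff_jF_ne N c)
      · exact hc
    have hc0 : c ≠ 0 := by
      rintro rfl
      rw [map_zero, sub_zero, h0] at hc'
      exact lt_irrefl _ hc'
    have hc1 : c ≠ 1728 := by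
      rintro rfl
      rw [h1] at hc'
      exact lt_irrefl _ hc'
    have hord := sx_ord_eq_one N c hc0 hc1 v hc'
    have hint : IsIntegral L c := Algebra.IsIntegral.isIntegral c
    refine ⟨minpoly L c, ?_⟩
    rw [← hv, rml_bcHom_aeval]
    refine rml_ord_aeval_eq_one v (ff_jF N) c _ ?_ ?_ hord
    · rw [Polynomial.eval_map_algebraMap]
      exact minpoly.aeval L c
    · rw [Polynomial.derivative_map, Polynomial.eval_map_algebraMap]
      exact (minpoly.irreducible hint).separable.aeval_derivative_ne_zero (minpoly.aeval L c)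

/-- `j` as an element of `lg_F L N` -/
def rml_jF : ↥(lg_F L N) := ⟨jqModC L, jqModC_mem_full L N⟩

/-- `j(q²)` as an element of `lg_F2 L N` -/
def rml_jF2 : ↥(lg_F2 L N) := ⟨lg_j2 L, lg_j2_mem_F2 L N⟩

@[simp] theorem rml_jF_coe : ((rml_jF L N : ↥(lg_F L N)) : LaurentSeries L) = jqModC L := rfl

@[simp] theorem rml_jF2_coe : ((rml_jF2 L N : ↥(lg_F2 L N)) : LaurentSeries L) = lg_j2 L := rfl

/-- **the ramification data of `j` on `lg_F L N`** -/
theorem rml_ramData : rml_RamData L (rml_jF L N) N := by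
  have h := (rml_ramData_bc L N).map
    (IntermediateField.equivOfEq (lg_F_eq_laurentBaseChange L N).symm)
  have h1 : IntermediateField.equivOfEq (lg_F_eq_laurentBaseChange L N).symm (rml_jbc L N) =
      rml_jF L N := Subtype.ext rfl
  rwa [h1] at h

/-- the isomorphism `φ = (q ↦ q²) : lg_F L N ≃ lg_F2 L N` -/
def rml_phiEquiv : ↥(lg_F L N) ≃ₐ[L] ↥(lg_F2 L N) :=
  IntermediateField.equivMap (lg_F L N) (lg_phi L)

@[simp] theorem rml_phiEquiv_coe (x : ↥(lg_F L N)) :
    ((rml_phiEquiv L N x : ↥(lg_F2 L N)) : LaurentSeries L) = lg_phi L (x : LaurentSeries L) := rfl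

theorem rml_phiEquiv_jF : rml_phiEquiv L N (rml_jF L N) = rml_jF2 L N := Subtype.ext rfl

/-- **the ramification data of `j' = j(q²)` on `lg_F2 L N`** -/
theorem rml_ramData2 : rml_RamData L (rml_jF2 L N) N := by
  have h := (rml_ramData L N).map (rml_phiEquiv L N)
  rwa [rml_phiEquiv_jF] at h

end Inst

end Fermat.Agent.JT3
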