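import Mathlib
import Fermat.Agent.JT3.Export.RamLInst
import Fermat.Agent.JT3.Inst.HesseDefs

/-!
# JT3 / Route R (S18), leaf [RAM-L], Hesse twin: the ramification data of `j(q³)` on `hs_F3 L N`
(prefix `rml_`)

The mirror of `rml_ramData2` for the Hesse cover (`ℓ = 2`): transport of `rml_ramData` along
`hs_phi L = (q ↦ q³)`.
-/

set_option autoImplicit false

noncomputable section

open AlgebraicCurve ModularCurve

namespace Fermat.Agent.JT3

open Fermat.Agent.S24

section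

variable (L : Type*) [Field L] (N : ℕ) [NeZero N]

/-- `j(q³)` as an element of `hs_F3 L N` -/
def rml_jF3 : ↥(hs_F3 L N) := ⟨hs_j3 L, hs_j3_mem_F3 L N⟩

@[simp] theorem rml_jF3_coe : ((rml_jF3 L N : ↥(hs_F3 L N)) : LaurentSeries L) = hs_j3 L := rfl

/-- the isomorphism `(q ↦ q³) : lg_F L N ≃ hs_F3 L N` -/
def rml_phiEquiv3 : ↥(lg_F L N) ≃ₐ[L] ↥(hs_F3 L N) :=
  IntermediateField.equivMap (lg_F L N) (hs_phi L)

@[simp] theorem rml_phiEquiv3_coe (x : ↥(lg_F L N)) :
    ((rml_phiEquiv3 L N x : ↥(hs_F3 L N)) : LaurentSeries L) = hs_phi L (x : LaurentSeries L) :=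
  rfl

theorem rml_phiEquiv3_jF : rml_phiEquiv3 L N (rml_jF L N) = rml_jF3 L N := Subtype.ext rfl

end

/-- **the ramification data of `j(q³)` on `hs_F3 L N`** -/
theorem rml_ramData3 (L : Type*) [Field L] [Algebra ℚ L] [Algebra L Kbar] [IsScalarTower ℚ L Kbar]
    (N : ℕ) [NeZero N] : rml_RamData L (rml_jF3 L N) N := by
  have h := (rml_ramData L N).map (rml_phiEquiv3 L N)
  rwa [rml_phiEquiv3_jF] at h

end Fermat.Agent.JT3
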